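import Mathlib

/-!
# Project ES (S20 + S21): shared definitions

Combinatorial invariants of a finite index subgroup `Γ` of `SL(2,ℤ)`, in terms of the left
multiplication action of `SL(2,ℤ)` on the coset space `SL(2,ℤ) ⧸ Γ`.
-/

set_option autoImplicit false

open scoped MatrixGroups

namespace Fermat.Agent.S21

/-- number of fixed points of `g` on the coset space `SL(2,ℤ) ⧸ Γ` -/
noncomputable def fixCount (Γ : Subgroup SL(2, ℤ)) (g : SL(2, ℤ)) : ℕ :=
  Nat.card {x : SL(2, ℤ) ⧸ Γ // g • x = x}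

/-- number of orbits of `⟨T⟩` on the coset space `SL(2,ℤ) ⧸ Γ` (= number of cusps) -/
noncomputable def cuspOrbitCount (Γ : Subgroup SL(2, ℤ)) : ℕ :=
  Nat.card (MulAction.orbitRel.Quotient (Subgroup.zpowers ModularGroup.T) (SL(2, ℤ) ⧸ Γ))

/-- the genus attached to `Γ` (for `-1 ∈ Γ`), as a rational number:
`1 + μ/12 - ε₂/4 - ε₃/3 - ε∞/2`. -/
noncomputable def genusOf (Γ : Subgroup SL(2, ℤ)) : ℚ :=
  1 + (Γ.index : ℚ) / 12 - (fixCount Γ ModularGroup.S : ℚ) / 4
    - (fixCount Γ (ModularGroup.S * ModularGroup.T) : ℚ) / 3 - (cuspOrbitCount Γ : ℚ) / 2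

end Fermat.Agent.S21
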