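import Fermat.Statements.S21
import Fermat.Prelude.Def_ModularCurve_GenusNumerics
import Fermat.Agent.S49.HeckeFinite
import Fermat.Agent.S21.Defs
import Fermat.Agent.S21.C1.Index
import Fermat.Agent.S21.C.FixS
import Fermat.Agent.S21.C.FixST
import Fermat.Agent.S21.C4.Main
import Fermat.Agent.S21.H.Main
import Fermat.Agent.S21.P.Prim
import Fermat.Agent.S21.P.Parabolic
import Fermat.Agent.S21.P.Main
import Fermat.Agent.S21.E.Main

/-!
# Project ES (S20 + S21): top-level interfaces, wired to the work packages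
-/

set_option autoImplicit false

open ModularCurve ModularCurve.Period CongruenceSubgroup
open scoped MatrixGroups

namespace Fermat.Agent.S21

/-! ## WP-C: counting on `SL(2,ℤ) ⧸ Γ₀(N) ≃ ℙ¹(ℤ/N)` -/

/-- WP-C1 -/
theorem index_Gamma0 (N : ℕ) [NeZero N] : (Gamma0 N).index = dedekindPsi N :=
  Fermat.Agent.S21.C1.index_Gamma0 N

/-- WP-C2 -/
theorem fixCount_S_Gamma0 (N : ℕ) [NeZero N] :
    fixCount (Gamma0 N) ModularGroup.S = nuTwo N :=
  Fermat.Agent.S21.C.fixCount_S_Gamma0 N

/-- WP-C3 -/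
theorem fixCount_ST_Gamma0 (N : ℕ) [NeZero N] :
    fixCount (Gamma0 N) (ModularGroup.S * ModularGroup.T) = nuThree N :=
  Fermat.Agent.S21.C.fixCount_ST_Gamma0 N

/-- WP-C4 -/
theorem cuspOrbitCount_Gamma0 (N : ℕ) [NeZero N] :
    cuspOrbitCount (Gamma0 N) = cuspCount N :=
  Fermat.Agent.S21.C4.cuspOrbit_card_Gamma0 N

theorem genusOf_Gamma0 (N : ℕ) [NeZero N] : genusOf (Gamma0 N) = genusFormula N := by
  simp only [genusOf, genusFormula, index_Gamma0, fixCount_S_Gamma0, fixCount_ST_Gamma0,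
    cuspOrbitCount_Gamma0]

/-! ## WP-H: linear algebra bound for parabolic homs -/

theorem finrank_parabolicHoms_le (N : ℕ) [NeZero N] :
    FiniteDimensional ℂ (parabolicHoms ℂ (Gamma0 N) ℂ) ∧
      (Module.finrank ℂ (parabolicHoms ℂ (Gamma0 N) ℂ) : ℚ) ≤ 2 * genusFormula N := by
  have hneg : (-1 : SL(2, ℤ)) ∈ Gamma0 N := by
    rw [Gamma0_mem]; simp
  rw [← genusOf_Gamma0]
  exact Fermat.Agent.S21.H.finrank_parabolicHoms_le_genusOf (Gamma0 N) hneg

/-! ## WP-P: the period map -/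

/-- WP-P1: the period map is `ℂ`-linear. -/
theorem existsPeriodMapLinear (N : ℕ) [NeZero N] : ExistsPeriodMapLinear N :=
  Fermat.Agent.S21.P.existsPeriodMapLinear N

/-- WP-P2: periods of cusp forms are parabolic homs. -/
theorem periodMap_mem_parabolicHoms (N : ℕ) [NeZero N] (f : CuspForm (Gamma0 N) 2) :
    periodMap N f ∈ parabolicHoms ℂ (Gamma0 N) ℂ :=
  Fermat.Agent.S21.P.periodMap_mem_parabolicHoms N f

/-- WP-P3: injectivity of the Eichler-Shimura pair map. -/
theorem periodHomPair_injective (N : ℕ) [NeZero N] : Function.Injective (periodHomPair N) :=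
  Fermat.Agent.S21.P.periodHomPair_injective N

/-! ## WP-E: existence of cusp forms -/

/-- WP-E: lower bound for the dimension of weight 2 cusp forms. -/
theorem genusOf_le_finrank (N : ℕ) [NeZero N] :
    genusOf (Gamma0 N) ≤ (Module.finrank ℂ (CuspForm (Gamma0 N) 2) : ℚ) :=
  Fermat.Agent.S21.E.genusOf_le_finrank_Gamma0 N

theorem genusFormula_le_finrank (N : ℕ) [NeZero N] :
    genusFormula N ≤ (Module.finrank ℂ (CuspForm (Gamma0 N) 2) : ℚ) := by
  rw [← genusOf_Gamma0]; exact genusOf_le_finrank N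

end Fermat.Agent.S21
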