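import Fermat.Agent.S21.Interfaces

set_option autoImplicit false

open ModularCurve ModularCurve.Period CongruenceSubgroup

namespace Fermat.Agent.S21

theorem range_periodHomPair_le (N : ℕ) [NeZero N] :
    LinearMap.range (periodHomPair N) ≤ parabolicHoms ℂ (Gamma0 N) ℂ := by
  obtain ⟨pml, hpml, hdef⟩ := periodHomPair_def N (existsPeriodMapLinear N)
  rintro _ ⟨⟨f, g⟩, rfl⟩
  rw [hdef]
  have hf : pml f ∈ parabolicHoms ℂ (Gamma0 N) ℂ := by
    rw [hpml]; exact periodMap_mem_parabolicHoms N f
  have hg : pml g ∈ parabolicHoms ℂ (Gamma0 N) ℂ := by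
    rw [hpml]; exact periodMap_mem_parabolicHoms N g
  simp only [LinearMap.coprod_apply, LinearMap.comp_apply, LinearMap.add_apply,
    LinearMap.sub_apply, LinearMap.id_apply]
  exact Submodule.add_mem _
    (Submodule.add_mem _ hf (charInvolution_mem_parabolicHoms N ℂ ℂ hf))
    (Submodule.sub_mem _ hg (charInvolution_mem_parabolicHoms N ℂ ℂ hg))

theorem main_S21 (N : ℕ) [NeZero N] :
    Function.Injective (ModularCurve.periodHomPair N)
      ∧ LinearMap.range (ModularCurve.periodHomPair N)
          = ModularCurve.Period.parabolicHoms ℂ (CongruenceSubgroup.Gamma0 N) ℂ := by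
  haveI : FiniteDimensional ℂ (CuspForm (Gamma0 N) 2) :=
    Fermat.Agent.S49.finiteDimensional_cuspForm N 2
  obtain ⟨hfd, hle⟩ := finrank_parabolicHoms_le N
  haveI := hfd
  have hinj := periodHomPair_injective N
  refine ⟨hinj, ?_⟩
  refine Submodule.eq_of_le_of_finrank_le (range_periodHomPair_le N) ?_
  rw [LinearMap.finrank_range_of_inj hinj, Module.finrank_prod]
  have h1 := genusFormula_le_finrank N
  have h2 : (Module.finrank ℂ (parabolicHoms ℂ (Gamma0 N) ℂ) : ℚ)
      ≤ ((Module.finrank ℂ (CuspForm (Gamma0 N) 2) +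
          Module.finrank ℂ (CuspForm (Gamma0 N) 2) : ℕ) : ℚ) := by
    push_cast; linarith
  exact_mod_cast h2

theorem main_S20 (N : ℕ) [NeZero N] :
    (Module.finrank ℂ (CuspForm (CongruenceSubgroup.Gamma0 N) 2) : ℚ)
      = ModularCurve.genusFormula N := by
  haveI : FiniteDimensional ℂ (CuspForm (Gamma0 N) 2) :=
    Fermat.Agent.S49.finiteDimensional_cuspForm N 2
  obtain ⟨hfd, hle⟩ := finrank_parabolicHoms_le N
  haveI := hfd
  have hinj := periodHomPair_injective N
  refine le_antisymm ?_ (genusFormula_le_finrank N)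
  have h3 : Module.finrank ℂ (LinearMap.range (periodHomPair N))
      ≤ Module.finrank ℂ (parabolicHoms ℂ (Gamma0 N) ℂ) :=
    Submodule.finrank_mono (range_periodHomPair_le N)
  rw [LinearMap.finrank_range_of_inj hinj, Module.finrank_prod] at h3
  have h4 : ((Module.finrank ℂ (CuspForm (Gamma0 N) 2) +
          Module.finrank ℂ (CuspForm (Gamma0 N) 2) : ℕ) : ℚ)
      ≤ (Module.finrank ℂ (parabolicHoms ℂ (Gamma0 N) ℂ) : ℚ) := by exact_mod_cast h3
  push_cast at h4
  linarith

end Fermat.Agent.S21
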